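import Fermat.Agent.S17.Closed.Rank

/-!
# S17, block CLOSED: Var3 copies of the rank equations and the bridge coordinates <-> functions
-/

set_option autoImplicit false
set_option linter.unusedSectionVars false

namespace Fermat.Agent.S17Lib

open Matrix

section Rat

/-- equations over `ℚ` can be tested after any field extension. -/
theorem CL_eval_eq_zero_iff {σ L : Type*} [Field L] [Algebra ℚ L] (x : σ → ℚ)
    (f : MvPolynomial σ ℚ) :
    MvPolynomial.eval x f = 0 ↔ MvPolynomial.aeval (fun i => algebraMap ℚ L (x i)) f = 0 := by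
  have h : MvPolynomial.aeval (fun i => algebraMap ℚ L (x i)) f =
      algebraMap ℚ L (MvPolynomial.eval x f) := by
    rw [MvPolynomial.aeval_def, MvPolynomial.eval, MvPolynomial.coe_eval₂Hom,
      MvPolynomial.eval₂_comp_right]
    simp [Function.comp_def]
  rw [h]
  exact (map_eq_zero (algebraMap ℚ L)).symm

end Rat

section V3

variable {n₁ ι₁ n₂ ι₂ n₃ ι₃ : Type}

/-- copy of a set of equations in the first block. -/
def CL_in1 (n₂ ι₂ n₃ ι₃ : Type) (Z : Set (MvPolynomial (n₁ × ι₁) ℚ)) :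
    Set (MvPolynomial (Var3 n₁ ι₁ n₂ ι₂ n₃ ι₃) ℚ) :=
  (fun f => MvPolynomial.rename Sum.inl f) '' Z

/-- copy of a set of equations in the second block. -/
def CL_in2 (n₁ ι₁ n₃ ι₃ : Type) (Z : Set (MvPolynomial (n₂ × ι₂) ℚ)) :
    Set (MvPolynomial (Var3 n₁ ι₁ n₂ ι₂ n₃ ι₃) ℚ) :=
  (fun f => MvPolynomial.rename (fun x => Sum.inr (Sum.inl x)) f) '' Z

/-- copy of a set of equations in the third block. -/
def CL_in3 (n₁ ι₁ n₂ ι₂ : Type) (Z : Set (MvPolynomial (n₃ × ι₃) ℚ)) :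
    Set (MvPolynomial (Var3 n₁ ι₁ n₂ ι₂ n₃ ι₃) ℚ) :=
  (fun f => MvPolynomial.rename (fun x => Sum.inr (Sum.inr x)) f) '' Z

variable {R : Type*} [CommRing R] [Algebra ℚ R]

theorem CL_in1_iff (Z : Set (MvPolynomial (n₁ × ι₁) ℚ)) (a₁ : Matrix n₁ ι₁ R)
    (a₂ : Matrix n₂ ι₂ R) (a₃ : Matrix n₃ ι₃ R) :
    (∀ f ∈ CL_in1 n₂ ι₂ n₃ ι₃ Z, MvPolynomial.aeval (pack3 a₁ a₂ a₃) f = 0) ↔
      ∀ f ∈ Z, MvPolynomial.aeval (fun x : n₁ × ι₁ => a₁ x.1 x.2) f = 0 := by
  constructor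
  · intro h f hf
    have := h _ ⟨f, hf, rfl⟩
    rwa [MvPolynomial.aeval_rename] at this
  · rintro h _ ⟨f, hf, rfl⟩
    rw [MvPolynomial.aeval_rename]
    exact h f hf

theorem CL_in2_iff (Z : Set (MvPolynomial (n₂ × ι₂) ℚ)) (a₁ : Matrix n₁ ι₁ R)
    (a₂ : Matrix n₂ ι₂ R) (a₃ : Matrix n₃ ι₃ R) :
    (∀ f ∈ CL_in2 n₁ ι₁ n₃ ι₃ Z, MvPolynomial.aeval (pack3 a₁ a₂ a₃) f = 0) ↔
      ∀ f ∈ Z, MvPolynomial.aeval (fun x : n₂ × ι₂ => a₂ x.1 x.2) f = 0 := by
  constructor
  · intro h f hf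
    have := h _ ⟨f, hf, rfl⟩
    rwa [MvPolynomial.aeval_rename] at this
  · rintro h _ ⟨f, hf, rfl⟩
    rw [MvPolynomial.aeval_rename]
    exact h f hf

theorem CL_in3_iff (Z : Set (MvPolynomial (n₃ × ι₃) ℚ)) (a₁ : Matrix n₁ ι₁ R)
    (a₂ : Matrix n₂ ι₂ R) (a₃ : Matrix n₃ ι₃ R) :
    (∀ f ∈ CL_in3 n₁ ι₁ n₂ ι₂ Z, MvPolynomial.aeval (pack3 a₁ a₂ a₃) f = 0) ↔
      ∀ f ∈ Z, MvPolynomial.aeval (fun x : n₃ × ι₃ => a₃ x.1 x.2) f = 0 := by
  constructor
  · intro h f hf
    have := h _ ⟨f, hf, rfl⟩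
    rwa [MvPolynomial.aeval_rename] at this
  · rintro h _ ⟨f, hf, rfl⟩
    rw [MvPolynomial.aeval_rename]
    exact h f hf

end V3

section Bridge

variable {K F : Type*} [Field K] [Algebra ℚ K] [Field F] [Algebra K F]
variable {ιu ι ι' n : Type*} [Fintype ιu] [Fintype ι] [Fintype ι']

/-- the function with coordinates `z` in the family `e`. -/
noncomputable def CL_real (e : ι → F) : (ι → K) →ₗ[K] F := Fintype.linearCombination K e

theorem CL_real_apply (e : ι → F) (z : ι → K) : CL_real e z = ∑ i, z i • e i := by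
  simp [CL_real, Fintype.linearCombination_apply]

theorem CL_real_injective (e : ι → F) (he : LinearIndependent K e) :
    Function.Injective (CL_real (K := K) e) := by
  rw [← LinearMap.ker_eq_bot, LinearMap.ker_eq_bot']
  intro z hz
  rw [CL_real_apply] at hz
  funext i
  exact Fintype.linearIndependent_iff.mp he z hz i

theorem CL_real_prodRow (eC : ιu → F) (eB : ι → F) (eBC : ι' → F) (c : ιu → ι → ι' → ℚ)
    (hc : ∀ u j, eC u * eB j = ∑ k, (algebraMap ℚ K (c u j k)) • eBC k)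
    (a : Matrix n ι K) (x : ιu × n) :
    CL_real eBC (CL_prodRow c a x) = eC x.1 * CL_real eB (a x.2) := by
  rw [CL_real_apply, CL_real_apply, Finset.mul_sum]
  simp only [CL_prodRow, Finset.sum_smul]
  rw [Finset.sum_comm]
  refine Finset.sum_congr rfl fun j _ => ?_
  rw [mul_smul_comm, hc, Finset.smul_sum]
  refine Finset.sum_congr rfl fun k _ => ?_
  rw [smul_smul, mul_comm]

theorem CL_real_mulC (eC : ιu → F) (eB : ι → F) (eBC : ι' → F) (c : ιu → ι → ι' → ℚ)
    (hc : ∀ u j, eC u * eB j = ∑ k, (algebraMap ℚ K (c u j k)) • eBC k)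
    (s : ιu → K) (z : ι → K) :
    CL_real eBC (mulC c s z) = CL_real eC s * CL_real eB z := by
  have h := CL_mulC_eq c (Matrix.of fun _ : Unit => z) s ()
  have h' : mulC c s z = ∑ u, s u • CL_prodRow c (Matrix.of fun _ : Unit => z) (u, ()) := h
  rw [h', map_sum, CL_real_apply eC, Finset.sum_mul]
  refine Finset.sum_congr rfl fun u _ => ?_
  rw [map_smul, CL_real_prodRow eC eB eBC c hc, smul_mul_assoc]
  rfl

/-- the subspace of functions spanned by the rows of `a`. -/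
noncomputable def CL_rowSp (e : ι → F) (a : Matrix n ι K) : Submodule K F :=
  Submodule.span K (Set.range fun l => CL_real e (a l))

theorem CL_finrank_rowSp [Fintype n] (e : ι → F) (he : LinearIndependent K e) (a : Matrix n ι K)
    (ha : LinearIndependent K a.row) : Module.finrank K (CL_rowSp e a) = Fintype.card n := by
  unfold CL_rowSp
  apply finrank_span_eq_card
  have : (fun l => CL_real e (a l)) = (CL_real (K := K) e) ∘ a.row := rfl
  rw [this]
  exact ha.map' _ (LinearMap.ker_eq_bot.mpr (CL_real_injective e he))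

theorem CL_map_span_prodRow (eC : ιu → F) (eB : ι → F) (eBC : ι' → F) (c : ιu → ι → ι' → ℚ)
    (hc : ∀ u j, eC u * eB j = ∑ k, (algebraMap ℚ K (c u j k)) • eBC k) (a : Matrix n ι K) :
    (Submodule.span K (Set.range (CL_prodRow c a))).map (CL_real eBC) =
      Submodule.span K (Set.range eC) * CL_rowSp eB a := by
  unfold CL_rowSp
  rw [Submodule.map_span, Submodule.span_mul_span]
  congr 1
  ext y
  constructor
  · rintro ⟨_, ⟨x, rfl⟩, rfl⟩
    rw [CL_real_prodRow eC eB eBC c hc]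
    exact Set.mul_mem_mul ⟨x.1, rfl⟩ ⟨x.2, rfl⟩
  · rintro ⟨_, ⟨u, rfl⟩, _, ⟨l, rfl⟩, rfl⟩
    exact ⟨_, ⟨(u, l), rfl⟩, CL_real_prodRow eC eB eBC c hc a (u, l)⟩

theorem CL_finrank_bridge (eC : ιu → F) (eB : ι → F) (eBC : ι' → F) (c : ιu → ι → ι' → ℚ)
    (hBC : LinearIndependent K eBC)
    (hc : ∀ u j, eC u * eB j = ∑ k, (algebraMap ℚ K (c u j k)) • eBC k) (a : Matrix n ι K) :
    Module.finrank K (Submodule.span K (Set.range (CL_prodRow c a))) =
      Module.finrank K ↥(Submodule.span K (Set.range eC) * CL_rowSp eB a) := by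
  rw [← CL_map_span_prodRow eC eB eBC c hc a]
  exact (Submodule.equivMapOfInjective _ (CL_real_injective eBC hBC) _).finrank_eq

/-- The rank equations in terms of functions. -/
theorem CL_rk_iff_fun (eC : ιu → F) (eB : ι → F) (eBC : ι' → F) (c : ιu → ι → ι' → ℚ)
    (hBC : LinearIndependent K eBC)
    (hc : ∀ u j, eC u * eB j = ∑ k, (algebraMap ℚ K (c u j k)) • eBC k) (a : Matrix n ι K)
    (r : ℕ) :
    (∀ f ∈ CL_rkPolys n c r, MvPolynomial.aeval (fun x : n × ι => a x.1 x.2) f = 0) ↔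
      Module.finrank K ↥(Submodule.span K (Set.range eC) * CL_rowSp eB a) ≤ r := by
  rw [CL_rk_iff, CL_finrank_bridge eC eB eBC c hBC hc]

end Bridge

end Fermat.Agent.S17Lib
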