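import Fermat.Agent.S17.Closed.Bridge
import Fermat.Agent.S17.Geo.Closed

/-!
# S17, block CLOSED: the points of the rank equations are the spaces `L(B - E)`
-/

set_option autoImplicit false
set_option linter.unusedSectionVars false

open AlgebraicCurve Fermat.Agent.S24Lib Fermat.Agent.FFLib

namespace Fermat.Agent.S17Lib

open Matrix

theorem CL_li_of_plu_ne_zero {n ι L : Type*} [Fintype n] [DecidableEq n] [Field L]
    (a : Matrix n ι L) (h : plu a ≠ 0) : LinearIndependent L a.row := by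
  obtain ⟨I, hI⟩ : ∃ I, plu a I ≠ 0 := by
    by_contra hcon
    push Not at hcon
    exact h (funext hcon)
  have h1 : LinearIndependent L (a.submatrix id I).row :=
    Matrix.linearIndependent_rows_of_det_ne_zero hI
  have h2 : (a.submatrix id I).row = (LinearMap.funLeft L L I) ∘ a.row := by
    ext r c; rfl
  rw [h2] at h1
  exact LinearIndependent.of_comp _ h1

variable {K F : Type*} [Field K] [Field F] [Algebra K F]

theorem CL_mul_eq_mulSpan (U W : Submodule K F) : U * W = mulSpan U W := by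
  rw [Submodule.mul_eq_span_mul_set, mulSpan]
  congr 1
  ext x
  constructor
  · rintro ⟨a, ha, b, hb, rfl⟩
    exact ⟨a, ha, b, hb, rfl⟩
  · rintro ⟨a, ha, b, hb, rfl⟩
    exact ⟨a, ha, b, hb, rfl⟩

variable [Algebra ℚ K]
variable {ιu ι ι' n : Type*} [Fintype ιu] [Fintype ι] [Fintype ι'] [Fintype n] [DecidableEq n]

theorem CL_rowSp_le (eB : ι → F) (a : Matrix n ι K) :
    CL_rowSp eB a ≤ Submodule.span K (Set.range eB) := by
  unfold CL_rowSp
  rw [Submodule.span_le]
  rintro _ ⟨l, rfl⟩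
  show CL_real eB (a.row l) ∈ _
  rw [CL_real_apply]
  exact Submodule.sum_mem _ fun i _ => Submodule.smul_mem _ _ (Submodule.subset_span ⟨i, rfl⟩)

/-- **Closedness.**  A full rank point of the rank equations is `L(B - E)`. -/
theorem CL_point_geo [IsAlgClosed K] (h : IsFF K F) {c : ℤ} (hc0 : 0 ≤ c) (hc : IsRRBound K F c)
    (B C : Divisor K F) (eC : ιu → F) (eB : ι → F) (eBC : ι' → F) (cst : ιu → ι → ι' → ℚ)
    (hC : Submodule.span K (Set.range eC) = riemannRochSpace C)
    (hB : Submodule.span K (Set.range eB) = riemannRochSpace B)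
    (hBli : LinearIndependent K eB) (hBC : LinearIndependent K eBC)
    (hcst : ∀ u j, eC u * eB j = ∑ k, (algebraMap ℚ K (cst u j k)) • eBC k)
    (d : ℕ) (r : ℕ) (hn : (Fintype.card n : ℤ) = (ell B : ℤ) - d)
    (hr : (r : ℤ) = (ell (B + C) : ℤ) - d)
    (hdB : c + d + 1 ≤ Divisor.degree B) (hdC : c ≤ Divisor.degree (C - B))
    (a : Matrix n ι K) (ha : plu a ≠ 0)
    (hZ : ∀ f ∈ CL_rkPolys n cst r, MvPolynomial.aeval (fun x : n × ι => a x.1 x.2) f = 0) :
    ∃ E : Divisor K F, 0 ≤ E ∧ Divisor.degree E = d ∧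
      CL_rowSp eB a = riemannRochSpace (B - E) := by
  rw [CL_rk_iff_fun eC eB eBC cst hBC hcst, hC, CL_mul_eq_mulSpan] at hZ
  refine eq_L_of_mul_le h hc0 hc B C (CL_rowSp eB a) d (hB ▸ CL_rowSp_le eB a) ?_ hdB hdC ?_
  · rw [CL_finrank_rowSp eB hBli a (CL_li_of_plu_ne_zero a ha), hn]
  · rw [← hr]
    exact_mod_cast hZ

/-- Converse: `L(B - E)` satisfies the rank equations. -/
theorem CL_geo_point [IsAlgClosed K] (h : IsFF K F) {c : ℤ} (hc : IsRRBound K F c)
    (B C : Divisor K F) (eC : ιu → F) (eB : ι → F) (eBC : ι' → F) (cst : ιu → ι → ι' → ℚ)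
    (hC : Submodule.span K (Set.range eC) = riemannRochSpace C)
    (hBC : LinearIndependent K eBC)
    (hcst : ∀ u j, eC u * eB j = ∑ k, (algebraMap ℚ K (cst u j k)) • eBC k)
    (d : ℕ) (r : ℕ) (hr : (r : ℤ) = (ell (B + C) : ℤ) - d)
    (hdBC : c + d ≤ Divisor.degree (B + C))
    (a : Matrix n ι K) (E : Divisor K F) (hE : Divisor.degree E = d)
    (ha : CL_rowSp eB a = riemannRochSpace (B - E)) :
    ∀ f ∈ CL_rkPolys n cst r, MvPolynomial.aeval (fun x : n × ι => a x.1 x.2) f = 0 := by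
  rw [CL_rk_iff_fun eC eB eBC cst hBC hcst, hC, CL_mul_eq_mulSpan, ha]
  have h1 := mulSpan_L_le (K := K) (F := F) C (B - E)
  have hfd := finiteDimensional_L h (C + (B - E))
  have h2 : Module.finrank K (mulSpan (riemannRochSpace C) (riemannRochSpace (B - E))) ≤
      ell (C + (B - E)) := Submodule.finrank_mono h1
  have h3 := hc (C + (B - E)) (by
    rw [map_add, map_sub, hE]; rw [map_add] at hdBC; omega)
  have h4 := hc (B + C) (by omega)
  rw [map_add, map_sub, hE] at h3
  rw [map_add] at h4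
  omega

end Fermat.Agent.S17Lib
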