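import Mathlib

/-!
# S17, block CLOSED, part (CL1): the cone over the Grassmannian is closed

Pluecker vectors are indexed by ALL maps `I : Fin k → ι`.  The cone of decomposable vectors
is cut out by the "adjugate identity" `CL_Dec`.
-/

namespace Fermat.Agent.S17Lib

open Matrix

/-- Pluecker vector of a `k × ι` matrix, indexed by all maps `Fin k → ι`. -/
def CL_plu {k : ℕ} {ι R : Type*} [CommRing R] (B : Matrix (Fin k) ι R) : (Fin k → ι) → R :=
  fun I => (B.submatrix id I).det

/-- The decomposability equations. -/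
def CL_Dec {k : ℕ} {ι R : Type*} [CommRing R] (P : (Fin k → ι) → R) : Prop :=
  ∀ I0 I : Fin k → ι,
    P I0 ^ (k - 1) * P I = Matrix.det (Matrix.of fun a b => P (Function.update I0 a (I b)))

theorem CL_plu_update {k : ℕ} {ι R : Type*} [CommRing R] (B : Matrix (Fin k) ι R)
    (I0 : Fin k → ι) (a : Fin k) (j : ι) :
    CL_plu B (Function.update I0 a j) =
      ((B.submatrix id I0).adjugate *ᵥ (fun r => B r j)) a := by
  rw [← Matrix.cramer_eq_adjugate_mulVec, Matrix.cramer_apply]
  unfold CL_plu
  congr 1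
  ext r c
  by_cases h : c = a
  · subst h; simp
  · simp [h]

theorem CL_dec_plu {k : ℕ} {ι R : Type*} [CommRing R] (B : Matrix (Fin k) ι R) :
    CL_Dec (CL_plu B) := by
  intro I0 I
  have h : (Matrix.of fun a b => CL_plu B (Function.update I0 a (I b))) =
      (B.submatrix id I0).adjugate * (B.submatrix id I) := by
    ext a b
    rw [Matrix.of_apply, CL_plu_update]
    simp [Matrix.mul_apply, Matrix.mulVec, dotProduct]
  rw [h, Matrix.det_mul, Matrix.det_adjugate]
  simp [CL_plu]

theorem CL_dec_smul {k : ℕ} {ι R : Type*} [CommRing R] (hk : 0 < k) (c : R)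
    {P : (Fin k → ι) → R} (hP : CL_Dec P) : CL_Dec (c • P) := by
  intro I0 I
  have h : (Matrix.of fun a b => (c • P) (Function.update I0 a (I b))) =
      c • (Matrix.of fun a b => P (Function.update I0 a (I b))) := by
    ext a b; simp
  rw [h, Matrix.det_smul, ← hP I0 I]
  simp only [Pi.smul_apply, smul_eq_mul, Fintype.card_fin]
  obtain ⟨k', rfl⟩ : ∃ k', k = k' + 1 := ⟨k - 1, by omega⟩
  simp only [Nat.add_sub_cancel]
  ring

theorem CL_linearIndependent_of_plu_ne_zero {k : ℕ} {ι L : Type*} [Field L]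
    (B : Matrix (Fin k) ι L) (I : Fin k → ι) (h : CL_plu B I ≠ 0) :
    LinearIndependent L B.row := by
  have h1 : LinearIndependent L (B.submatrix id I).row :=
    Matrix.linearIndependent_rows_of_det_ne_zero h
  have h2 : (B.submatrix id I).row = (LinearMap.funLeft L L I) ∘ B.row := by
    ext r c; rfl
  rw [h2] at h1
  exact LinearIndependent.of_comp _ h1

theorem CL_exists_of_dec {k : ℕ} {ι L : Type*} [Field L] (P : (Fin k → ι) → L) (hP0 : P ≠ 0)
    (hP : CL_Dec P) :
    ∃ (B : Matrix (Fin k) ι L) (c : L), c ≠ 0 ∧ LinearIndependent L B.row ∧ P = c • CL_plu B := by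
  obtain ⟨I0, hI0⟩ : ∃ I0, P I0 ≠ 0 := by
    by_contra hcon
    push Not at hcon
    exact hP0 (funext hcon)
  let B : Matrix (Fin k) ι L := Matrix.of fun a j => (P I0)⁻¹ * P (Function.update I0 a j)
  have key : ∀ I, P I = P I0 * CL_plu B I := by
    intro I
    have h : B.submatrix id I =
        (P I0)⁻¹ • (Matrix.of fun a b => P (Function.update I0 a (I b))) := by
      ext a b; simp [B]
    unfold CL_plu
    rw [h, Matrix.det_smul, ← hP I0 I, Fintype.card_fin]
    rcases Nat.eq_zero_or_pos k with hk | hk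
    · subst hk
      have h1 := hP I0 I0
      have h2 := hP I0 I
      simp at h1 h2
      simp [h1, h2]
    · obtain ⟨k', rfl⟩ : ∃ k', k = k' + 1 := ⟨k - 1, by omega⟩
      simp only [Nat.add_sub_cancel]
      have hx : P I0 * ((P I0)⁻¹ ^ (k' + 1) * P I0 ^ k') = 1 := by
        rw [inv_pow, pow_succ (P I0) k']
        field_simp
      calc P I = (P I0 * ((P I0)⁻¹ ^ (k' + 1) * P I0 ^ k')) * P I := by rw [hx, one_mul]
        _ = _ := by ring
  refine ⟨B, P I0, hI0, ?_, funext fun I => by simpa using key I⟩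
  have : CL_plu B I0 ≠ 0 := by
    intro h0
    have := key I0
    rw [h0, mul_zero] at this
    exact hI0 this
  exact CL_linearIndependent_of_plu_ne_zero B I0 this

/-- The decomposability equations as polynomials over `ℚ`. -/
noncomputable def CL_decPoly {k : ℕ} {ι : Type*} (I0 I : Fin k → ι) :
    MvPolynomial (Fin k → ι) ℚ :=
  MvPolynomial.X I0 ^ (k - 1) * MvPolynomial.X I -
    Matrix.det (Matrix.of fun a b => (MvPolynomial.X (Function.update I0 a (I b)) :
      MvPolynomial (Fin k → ι) ℚ))

theorem CL_aeval_decPoly {k : ℕ} {ι L : Type*} [Field L] [Algebra ℚ L] (P : (Fin k → ι) → L)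
    (I0 I : Fin k → ι) :
    MvPolynomial.aeval P (CL_decPoly I0 I) =
      P I0 ^ (k - 1) * P I - Matrix.det (Matrix.of fun a b => P (Function.update I0 a (I b))) := by
  unfold CL_decPoly
  rw [map_sub, map_mul, map_pow, MvPolynomial.aeval_X, MvPolynomial.aeval_X, AlgHom.map_det]
  congr 2
  ext a b
  simp

theorem CL_dec_iff_aeval {k : ℕ} {ι L : Type*} [Field L] [Algebra ℚ L] (P : (Fin k → ι) → L) :
    CL_Dec P ↔ ∀ I0 I, MvPolynomial.aeval P (CL_decPoly I0 I) = 0 := by
  simp only [CL_aeval_decPoly, sub_eq_zero]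
  rfl

end Fermat.Agent.S17Lib
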