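import Fermat.Agent.S17.Cube.Defs
import Fermat.Agent.S17.Closed.Dec

/-!
# S17, block CLOSED, part (CL2): rank conditions as polynomial equations (Stiefel coordinates)
-/

set_option autoImplicit false

namespace Fermat.Agent.S17Lib

open Matrix

/-- independent rows => some maximal minor is nonzero. -/
theorem CL_exists_minor_ne_zero {k : ℕ} {ι L : Type*} [Fintype ι] [Field L]
    (B : Matrix (Fin k) ι L) (hB : LinearIndependent L B.row) :
    ∃ I : Fin k → ι, (B.submatrix id I).det ≠ 0 := by
  classical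
  have h1 : B.rank = k := by
    rw [Matrix.rank_eq_finrank_span_row, finrank_span_eq_card hB, Fintype.card_fin]
  have h2 : Module.finrank L (Submodule.span L (Set.range B.col)) = k := by
    rw [← Matrix.rank_eq_finrank_span_cols, h1]
  obtain ⟨f, hf, -, hli⟩ := Submodule.exists_fun_fin_finrank_span_eq L (Set.range B.col)
  choose I hI using hf
  refine ⟨I ∘ Fin.cast h2.symm, ?_⟩
  have h3 : LinearIndependent L (B.submatrix id (I ∘ Fin.cast h2.symm)).col := by
    have : (B.submatrix id (I ∘ Fin.cast h2.symm)).col = f ∘ Fin.cast h2.symm := by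
      funext i
      rw [Function.comp_apply, ← hI]
      rfl
    rw [this]
    exact hli.comp _ (Fin.cast_injective _)
  rw [Matrix.linearIndependent_cols_iff_isUnit, Matrix.isUnit_iff_isUnit_det] at h3
  exact h3.ne_zero

/-- `finrank (span (range v)) ≤ r` iff all `(r+1)`-minors of the family `v` vanish. -/
theorem CL_finrank_le_iff {τ ι L : Type*} [Fintype ι] [Field L] (v : τ → ι → L) (r : ℕ) :
    Module.finrank L (Submodule.span L (Set.range v)) ≤ r ↔
      ∀ (T : Fin (r + 1) → τ) (J : Fin (r + 1) → ι),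
        Matrix.det (Matrix.of fun p q => v (T p) (J q)) = 0 := by
  classical
  constructor
  · intro h T J
    by_contra hne
    have hli : LinearIndependent L (Matrix.of fun p => v (T p)).row :=
      CL_linearIndependent_of_plu_ne_zero (Matrix.of fun p => v (T p)) J hne
    have h1 := finrank_span_eq_card hli
    rw [Fintype.card_fin] at h1
    have h2 : Submodule.span L (Set.range (Matrix.of fun p => v (T p)).row) ≤
        Submodule.span L (Set.range v) := by
      apply Submodule.span_mono
      rintro _ ⟨p, rfl⟩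
      exact ⟨T p, rfl⟩
    have h3 := Submodule.finrank_mono h2
    omega
  · intro h
    by_contra hlt
    push Not at hlt
    obtain ⟨f, hf, -, hli⟩ := Submodule.exists_fun_fin_finrank_span_eq L (Set.range v)
    choose T hT using hf
    have hli' : LinearIndependent L (Matrix.of fun p : Fin (r + 1) => v (T (Fin.castLE hlt p))).row := by
      have : (Matrix.of fun p : Fin (r + 1) => v (T (Fin.castLE hlt p))).row = f ∘ Fin.castLE hlt := by
        funext p
        rw [Function.comp_apply, ← hT]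
        rfl
      rw [this]
      exact hli.comp _ (Fin.castLE_injective _)
    obtain ⟨J, hJ⟩ := CL_exists_minor_ne_zero _ hli'
    exact hJ (h (fun p => T (Fin.castLE hlt p)) J)

section Prod

variable {ιu ι ι' n : Type*} [Fintype ι]

/-- the rows `e_u * a_l` (coordinates of the products of the basis vectors of `V_c` with the rows
of `a`). -/
def CL_prodRow {R : Type*} [CommRing R] [Algebra ℚ R] (c : ιu → ι → ι' → ℚ) (a : Matrix n ι R) :
    ιu × n → ι' → R :=
  fun x k => ∑ j, algebraMap ℚ R (c x.1 j k) * a x.2 j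

theorem CL_mulC_eq {R : Type*} [CommRing R] [Algebra ℚ R] [Fintype ιu] (c : ιu → ι → ι' → ℚ)
    (a : Matrix n ι R) (s : ιu → R) (l : n) :
    mulC c s (a l) = ∑ u, s u • CL_prodRow c a (u, l) := by
  funext k
  simp only [mulC, CL_prodRow, Finset.sum_apply, Pi.smul_apply, smul_eq_mul, Finset.mul_sum]
  refine Finset.sum_congr rfl fun u _ => Finset.sum_congr rfl fun j _ => ?_
  ring

theorem CL_prodRow_eq_mulC {R : Type*} [CommRing R] [Algebra ℚ R] [Fintype ιu] [DecidableEq ιu]
    (c : ιu → ι → ι' → ℚ) (a : Matrix n ι R) (x : ιu × n) :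
    CL_prodRow c a x = mulC c (Pi.single x.1 1) (a x.2) := by
  rw [CL_mulC_eq]
  simp [Pi.single_apply]

/-- the generic matrix. -/
noncomputable def CL_gen (n ι : Type*) : Matrix n ι (MvPolynomial (n × ι) ℚ) :=
  Matrix.of fun l j => MvPolynomial.X (l, j)

/-- the `(r+1)`-minors of the generic family `e_u * a_l`. -/
noncomputable def CL_rkPoly (c : ιu → ι → ι' → ℚ) (r : ℕ) (T : Fin (r + 1) → ιu × n)
    (J : Fin (r + 1) → ι') : MvPolynomial (n × ι) ℚ :=
  Matrix.det (Matrix.of fun p q => CL_prodRow c (CL_gen n ι) (T p) (J q))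

/-- the set of rank equations `rank {e_u * a_l} ≤ r`. -/
def CL_rkPolys (n : Type*) (c : ιu → ι → ι' → ℚ) (r : ℕ) : Set (MvPolynomial (n × ι) ℚ) :=
  {f | ∃ (T : Fin (r + 1) → ιu × n) (J : Fin (r + 1) → ι'), f = CL_rkPoly c r T J}

theorem CL_aeval_rkPoly {R : Type*} [CommRing R] [Algebra ℚ R] (c : ιu → ι → ι' → ℚ) (r : ℕ)
    (T : Fin (r + 1) → ιu × n) (J : Fin (r + 1) → ι') (a : Matrix n ι R) :
    MvPolynomial.aeval (fun x : n × ι => a x.1 x.2) (CL_rkPoly c r T J) =
      Matrix.det (Matrix.of fun p q => CL_prodRow c a (T p) (J q)) := by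
  unfold CL_rkPoly
  rw [AlgHom.map_det]
  congr 1
  ext p q
  simp [CL_prodRow, CL_gen, map_sum]

theorem CL_rk_iff {L : Type*} [Field L] [Algebra ℚ L] [Fintype ι'] (c : ιu → ι → ι' → ℚ) (r : ℕ)
    (a : Matrix n ι L) :
    (∀ f ∈ CL_rkPolys n c r, MvPolynomial.aeval (fun x : n × ι => a x.1 x.2) f = 0) ↔
      Module.finrank L (Submodule.span L (Set.range (CL_prodRow c a))) ≤ r := by
  rw [CL_finrank_le_iff]
  constructor
  · intro h T J
    rw [← CL_aeval_rkPoly]
    exact h _ ⟨T, J, rfl⟩
  · rintro h _ ⟨T, J, rfl⟩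
    rw [CL_aeval_rkPoly]
    exact h T J

theorem CL_prodRow_mul {R : Type*} [CommRing R] [Algebra ℚ R] [Fintype n] (c : ιu → ι → ι' → ℚ)
    (g : Matrix n n R) (a : Matrix n ι R) (x : ιu × n) :
    CL_prodRow c (g * a) x = ∑ l, g x.2 l • CL_prodRow c a (x.1, l) := by
  funext k
  simp only [CL_prodRow, Matrix.mul_apply, Finset.sum_apply, Pi.smul_apply, smul_eq_mul,
    Finset.mul_sum]
  rw [Finset.sum_comm]
  refine Finset.sum_congr rfl fun u _ => Finset.sum_congr rfl fun j _ => ?_
  ring

theorem CL_span_prodRow_mul_le {L : Type*} [Field L] [Algebra ℚ L] [Fintype n]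
    (c : ιu → ι → ι' → ℚ) (g : Matrix n n L) (a : Matrix n ι L) :
    Submodule.span L (Set.range (CL_prodRow c (g * a))) ≤
      Submodule.span L (Set.range (CL_prodRow c a)) := by
  rw [Submodule.span_le]
  rintro _ ⟨x, rfl⟩
  rw [CL_prodRow_mul]
  exact Submodule.sum_mem _ fun l _ => Submodule.smul_mem _ _ (Submodule.subset_span ⟨_, rfl⟩)

/-- the rank equations are invariant under `a ↦ g * a` (any square `g`). -/
theorem CL_rk_gl {L : Type*} [Field L] [Algebra ℚ L] [Fintype ι'] [Fintype n]
    (c : ιu → ι → ι' → ℚ) (r : ℕ) (g : Matrix n n L) (a : Matrix n ι L)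
    (h : ∀ f ∈ CL_rkPolys n c r, MvPolynomial.aeval (fun x : n × ι => a x.1 x.2) f = 0) :
    ∀ f ∈ CL_rkPolys n c r, MvPolynomial.aeval (fun x : n × ι => (g * a) x.1 x.2) f = 0 := by
  rw [CL_rk_iff] at h ⊢
  exact (Submodule.finrank_mono (CL_span_prodRow_mul_le c g a)).trans h

end Prod

end Fermat.Agent.S17Lib
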